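/-
S45, project CARAYOL-K, block PTS, node CUSP (owner helper86), part (a) (helper135): INCIDENCE at a cuspidal point.

`s i = 1 / j(q^i z) = (d i j)⁻¹`.  At a closed point `R` with `s 0 ∈ rad R`:
* all `s i ∈ rad R`;
* exactly one component `V c₀` is not `Away`;
* the steps `i + c₀ < k` are of type `F` at `R` (`s i ^ q / s (i+1)` is a unit of `R`), the others are of type `V`
  (`s (i+1) ^ q / s i` is a unit of `R`);
* the ratios `d (a + i) j / d (a - i) j`, `a = k - c₀`, `i ≤ min c₀ (k - c₀)`, are units of `R`.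
-/
import Mathlib
import Fermat.Agent.S45.Pts.Defs
import Fermat.Agent.S45.Gen.Step
import Fermat.Agent.S36.BP.Build.Level0
import Fermat.Agent.BAD.Model.Cusp.Dichotomy

set_option autoImplicit false

noncomputable section

namespace Fermat.Agent.S45.Pts.CuspInc

open Fermat.Agent.S18 Fermat.Agent.S36.BP Fermat.Agent.BAD.Model Fermat.Agent.S45.K
  Fermat.Agent.S45.Gen

section Map

variable {K₀ F₁ F : Type*} [Field K₀] [Field F₁] [Field F] [Algebra K₀ F₁] [Algebra K₀ F]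

theorem eps_map (φ : F₁ →ₐ[K₀] F) (q : ℕ) (cf : ℕ → ℕ → K₀) (S T : F₁) :
    φ (eps q cf S T) = eps q cf (φ S) (φ T) := by
  simp only [eps, map_sum, map_mul, map_pow, AlgHom.commutes]

theorem rel_map (φ : F₁ →ₐ[K₀] F) {q : ℕ} {cf : ℕ → ℕ → K₀} {S T : F₁} (h : Rel q cf S T) :
    Rel q cf (φ S) (φ T) := by
  unfold BAD.Model.Rel at h ⊢
  rw [← eps_map, ← map_pow, ← map_pow, ← map_mul, ← map_mul, ← map_add, ← map_add, h, map_zero]

end Map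

variable {K₀ F₀ F₁ F₂ F : Type*} [Field K₀] [Field F₀] [Field F₁] [Field F₂] [Field F]
  [Algebra K₀ F₀] [Algebra K₀ F₁] [Algebra K₀ F₂] [Algebra K₀ F]
variable {A₀ : ValuationSubring K₀} {q k : ℕ} {al0 be0 : F₀ →ₐ[K₀] F₁} {al1 be1 : F₁ →ₐ[K₀] F₂}
  {V0 : ValuationSubring F₀} {V1 : Fin 2 → ValuationSubring F₁} {V2 : Fin 3 → ValuationSubring F₂}
  {V : Fin (k + 1) → ValuationSubring F} {j x₀ t : F₀} {x₁ : F₁} {w1 : F₁ →ₐ[K₀] F₁}
  {cf : ℕ → ℕ → K₀}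
  {d : ℕ → F₀ →ₐ[K₀] F} {st : ℕ → F₁ →ₐ[K₀] F} {w : ℕ → F₂ →ₐ[K₀] F} {R : Subring F}

theorem rel_step (G : Geo A₀ k al0 be0 al1 be1 V0 V1 V2 V j d st w)
    (b1 : B1 A₀ q al0 be0 V1 j t x₁ w1 cf) {i : ℕ} (hi : i < k) :
    Rel q cf (d i j)⁻¹ (d (i + 1) j)⁻¹ := by
  have h := rel_map (st i) b1.rel
  rwa [map_inv₀, map_inv₀, G.st_al i hi, G.st_be i hi] at h

theorem rel_step' (G : Geo A₀ k al0 be0 al1 be1 V0 V1 V2 V j d st w)
    (b1 : B1 A₀ q al0 be0 V1 j t x₁ w1 cf) {i : ℕ} (hi : i < k) :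
    Rel q cf (d (i + 1) j)⁻¹ (d i j)⁻¹ := by
  have h := rel_map (st i) b1.rel'
  rwa [map_inv₀, map_inv₀, G.st_al i hi, G.st_be i hi] at h

theorem dj_ne (b0 : B0 A₀ q V0 j x₀ t F) (i : ℕ) : d i j ≠ 0 :=
  (map_ne_zero (d i)).2 b0.j_ne

theorem val_dj (G : Geo A₀ k al0 be0 al1 be1 V0 V1 V2 V j d st w) (b0 : B0 A₀ q V0 j x₀ t F)
    (c : Fin (k + 1)) {i : ℕ} (hi : i ≤ k) : (V c).valuation (d i j) = 1 :=
  (val_eq_one_of_comap (ι := (d i : F₀ →+* F)) (G.comap_d c i hi) j).2 b0.j_unit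

theorem val_q_lt (G : Geo A₀ k al0 be0 al1 be1 V0 V1 V2 V j d st w) (b0 : B0 A₀ q V0 j x₀ t F)
    (c : Fin (k + 1)) : (V c).valuation (q : F) < 1 := by
  have h := (val_lt_one_of_comap (ι := (d 0 : F₀ →+* F)) (G.comap_d c 0 (Nat.zero_le k))
    (q : F₀)).2 (Build.Level0.val_unif_lt_one b0.unif)
  simpa using h

/-- `V1 0 (q) < 1`. -/
theorem val1_q_lt (hk : 0 < k) (G : Geo A₀ k al0 be0 al1 be1 V0 V1 V2 V j d st w)
    (b0 : B0 A₀ q V0 j x₀ t F) : (V1 0).valuation (q : F₁) < 1 := by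
  have h0 : sty k ((0 : Fin (k + 1)) : ℕ) 0 = 0 := by simp [sty, hk]
  have hc := G.comap_st 0 0 hk
  rw [h0] at hc
  have h := (val_lt_one_of_comap (ι := (st 0 : F₁ →+* F)) hc (q : F₁)).1
    (by simpa using val_q_lt G b0 0)
  exact h

/-- `j(qz) ≡ j(z)^q` on `V1 0`. -/
theorem kron0 (hk : 0 < k) (G : Geo A₀ k al0 be0 al1 be1 V0 V1 V2 V j d st w)
    (b0 : B0 A₀ q V0 j x₀ t F) (b1 : B1 A₀ q al0 be0 V1 j t x₁ w1 cf) :
    (V1 0).valuation (be0 j - al0 j ^ q) < 1 := by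
  have hq := val1_q_lt hk G b0
  by_cases hq0 : (q : F₁) = 0
  · have h := b1.kron_j
    -- impossible or trivial: treat via the level `0` uniformiser
    exfalso
    have : (q : F₀) = 0 := by
      have : al0 (q : F₀) = 0 := by simpa using hq0
      exact (map_eq_zero al0).1 this
    have hU := b0.unif
    rw [this] at hU
    exact hU.inv_notMem (by simp [V0.zero_mem])
  have e : be0 j - al0 j ^ q = (q : F₁) * ((be0 j - al0 j ^ q) / (q : F₁)) := by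
    field_simp
  rw [e, map_mul]
  exact mul_lt_one_of_lt_of_le hq b1.kron_j

/-- `j(z) ≡ j(qz)^q` on `V1 1`. -/
theorem kron1 (hk : 0 < k) (G : Geo A₀ k al0 be0 al1 be1 V0 V1 V2 V j d st w)
    (b0 : B0 A₀ q V0 j x₀ t F) (b1 : B1 A₀ q al0 be0 V1 j t x₁ w1 cf) :
    (V1 1).valuation (al0 j - be0 j ^ q) < 1 := by
  have h := (val_lt_one_of_comap (ι := (w1 : F₁ →+* F₁)) b1.comap_w (be0 j - al0 j ^ q)).2
    (kron0 hk G b0 b1)
  have e : (w1 : F₁ →+* F₁) (be0 j - al0 j ^ q) = al0 j - be0 j ^ q := by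
    simp [b1.w_al, b1.w_be]
  rwa [e] at h

/-- the congruence on an `F`-step. -/
theorem cong_F (G : Geo A₀ k al0 be0 al1 be1 V0 V1 V2 V j d st w) (b0 : B0 A₀ q V0 j x₀ t F)
    (b1 : B1 A₀ q al0 be0 V1 j t x₁ w1 cf) (c : Fin (k + 1)) {i : ℕ} (hi : i + (c : ℕ) < k) :
    (V c).valuation ((d i j)⁻¹ ^ q / (d (i + 1) j)⁻¹ - 1) < 1 := by
  have hik : i < k := by omega
  have hc := G.comap_st c i hik
  have hs : sty k (c : ℕ) i = 0 := by simp [sty, hi]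
  rw [hs] at hc
  have h := (val_lt_one_of_comap (ι := (st i : F₁ →+* F)) hc (be0 j - al0 j ^ q)).2
    (kron0 (by omega) G b0 b1)
  have e : (st i : F₁ →+* F) (be0 j - al0 j ^ q) = d (i + 1) j - d i j ^ q := by
    simp [G.st_al i hik, G.st_be i hik]
  rw [e] at h
  have h0 := dj_ne (d := d) b0 i
  have h1 := dj_ne (d := d) b0 (i + 1)
  have e2 : (d i j)⁻¹ ^ q / (d (i + 1) j)⁻¹ - 1 = (d (i + 1) j - d i j ^ q) / d i j ^ q := by
    rw [inv_pow]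
    field_simp
  rw [e2, map_div₀, map_pow, val_dj G b0 c hik.le, one_pow, div_one]
  exact h

/-- the congruence on a `V`-step. -/
theorem cong_V (G : Geo A₀ k al0 be0 al1 be1 V0 V1 V2 V j d st w) (b0 : B0 A₀ q V0 j x₀ t F)
    (b1 : B1 A₀ q al0 be0 V1 j t x₁ w1 cf) (c : Fin (k + 1)) {i : ℕ} (hik : i < k)
    (hi : k ≤ i + (c : ℕ)) :
    (V c).valuation ((d (i + 1) j)⁻¹ ^ q / (d i j)⁻¹ - 1) < 1 := by
  have hc := G.comap_st c i hik
  have hs : sty k (c : ℕ) i = 1 := by simp [sty, not_lt.2 hi]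
  rw [hs] at hc
  have h := (val_lt_one_of_comap (ι := (st i : F₁ →+* F)) hc (al0 j - be0 j ^ q)).2
    (kron1 (by omega) G b0 b1)
  have e : (st i : F₁ →+* F) (al0 j - be0 j ^ q) = d i j - d (i + 1) j ^ q := by
    simp [G.st_al i hik, G.st_be i hik]
  rw [e] at h
  have h0 := dj_ne (d := d) b0 i
  have h1 := dj_ne (d := d) b0 (i + 1)
  have e2 : (d (i + 1) j)⁻¹ ^ q / (d i j)⁻¹ - 1 = (d i j - d (i + 1) j ^ q) / d (i + 1) j ^ q := by
    rw [inv_pow]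
    field_simp
  rw [e2, map_div₀, map_pow, val_dj G b0 c (by omega), one_pow, div_one]
  exact h

/-- all the `1 / j(q^i z)` vanish at a cuspidal point. -/
theorem s_mem_rad (G : Geo A₀ k al0 be0 al1 be1 V0 V1 V2 V j d st w)
    (b1 : B1 A₀ q al0 be0 V1 j t x₁ w1 cf) (hR : IsPt A₀ R) (hx : (d 0 j)⁻¹ ∈ rad R) :
    ∀ i ≤ k, (d i j)⁻¹ ∈ rad R := by
  intro i
  induction i with
  | zero => exact fun _ => hx
  | succ i ih =>
    intro hi
    exact (rel_step G b1 (by omega)).mem_rad hR b1.coeff_mem (ih (by omega))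

/-- **Incidence at a cuspidal point.** -/
theorem incidence (hb : BaseHyp A₀ q) (G : Geo A₀ k al0 be0 al1 be1 V0 V1 V2 V j d st w)
    (b0 : B0 A₀ q V0 j x₀ t F) (b1 : B1 A₀ q al0 be0 V1 j t x₁ w1 cf)
    (hR : PtBaseK A₀ q V R) (hx : (d 0 j)⁻¹ ∈ rad R) :
    ∃ c₀ : Fin (k + 1), LeLoc R (V c₀) ∧ (∀ c, c ≠ c₀ → Away R (V c)) ∧
      (∀ i, i + (c₀ : ℕ) < k → RUnit R ((d i j)⁻¹ ^ q / (d (i + 1) j)⁻¹)) ∧
      (∀ i, i < k → k ≤ i + (c₀ : ℕ) → RUnit R ((d (i + 1) j)⁻¹ ^ q / (d i j)⁻¹)) := by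
  have hP := hR.isPt
  have hs := s_mem_rad G b1 hP hx
  have hne : ∀ i, (d i j)⁻¹ ≠ 0 := fun i => inv_ne_zero (dj_ne b0 i)
  have hdich : ∀ i, i < k →
      (RUnit R ((d i j)⁻¹ ^ q / (d (i + 1) j)⁻¹) ∧ (d (i + 1) j)⁻¹ ^ q / (d i j)⁻¹ ∈ rad R) ∨
      (RUnit R ((d (i + 1) j)⁻¹ ^ q / (d i j)⁻¹) ∧ (d i j)⁻¹ ^ q / (d (i + 1) j)⁻¹ ∈ rad R) :=
    fun i hi => (rel_step G b1 hi).dichotomy hP hb.prime.two_le b1.coeff_mem b1.coeff_unit
      (hne i) (hne (i + 1)) (hs i hi.le)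
  obtain ⟨c₀, hc₀⟩ := not_forall.1 hR.not_all_away
  have hF : ∀ i, i + (c₀ : ℕ) < k → RUnit R ((d i j)⁻¹ ^ q / (d (i + 1) j)⁻¹) ∧
      (d (i + 1) j)⁻¹ ^ q / (d i j)⁻¹ ∈ rad R := by
    intro i hi
    rcases hdich i (by omega) with h | h
    · exact h
    · exact absurd (away_of_mem_rad hP h.2 (cong_F G b0 b1 c₀ hi)) hc₀
  have hV : ∀ i, i < k → k ≤ i + (c₀ : ℕ) → RUnit R ((d (i + 1) j)⁻¹ ^ q / (d i j)⁻¹) ∧
      (d i j)⁻¹ ^ q / (d (i + 1) j)⁻¹ ∈ rad R := by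
    intro i hik hi
    rcases hdich i hik with h | h
    · exact absurd (away_of_mem_rad hP h.2 (cong_V G b0 b1 c₀ hik hi)) hc₀
    · exact h
  refine ⟨c₀, (hR.leLoc_or_away c₀).resolve_right hc₀, ?_, fun i hi => (hF i hi).1,
    fun i hik hi => (hV i hik hi).1⟩
  intro c hc
  have hc' : (c : ℕ) ≠ (c₀ : ℕ) := fun h => hc (Fin.ext h)
  have h1 := c.2
  have h2 := c₀.2
  rcases lt_or_gt_of_ne hc' with hlt | hgt
  · -- the step `k - c₀` is `V` at `R`, `F` on `c`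
    exact away_of_mem_rad hP (hV (k - c₀) (by omega) (by omega)).2 (cong_F G b0 b1 c (by omega))
  · -- the step `k - c` is `F` at `R`, `V` on `c`
    exact away_of_mem_rad hP (hF (k - c) (by omega)).2 (cong_V G b0 b1 c (by omega) (by omega))

/-- the ratios `j(q^(a+i) z) / j(q^(a-i) z)` are units of `R`. -/
theorem ratio_unit (hq : q ≠ 0) (b0 : B0 A₀ q V0 j x₀ t F) (hP : IsPt A₀ R) {c₀ : ℕ} (hc₀ : c₀ ≤ k)
    (hF : ∀ i, i + c₀ < k → RUnit R ((d i j)⁻¹ ^ q / (d (i + 1) j)⁻¹))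
    (hV : ∀ i, i < k → k ≤ i + c₀ → RUnit R ((d (i + 1) j)⁻¹ ^ q / (d i j)⁻¹)) :
    ∀ i, i ≤ min c₀ (k - c₀) → RUnit R (d (k - c₀ + i) j / d (k - c₀ - i) j) := by
  intro i
  induction i with
  | zero =>
    intro _
    simp only [Nat.add_zero, Nat.sub_zero]
    rw [div_self (dj_ne b0 _)]
    exact RUnit.one R
  | succ i ih =>
    intro hi
    have hi1 : i + 1 ≤ c₀ := le_trans hi (min_le_left _ _)
    have hi2 : i + 1 ≤ k - c₀ := le_trans hi (min_le_right _ _)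
    have h1 := ih (by omega)
    have h2 := hF (k - c₀ - (i + 1)) (by omega)
    have h3 := hV (k - c₀ + i) (by omega) (by omega)
    have e1 : k - c₀ - (i + 1) + 1 = k - c₀ - i := by omega
    rw [e1] at h2
    refine hP.runit_of_pow hq ?_
    have a0 := dj_ne (d := d) b0 (k - c₀ - (i + 1))
    have a1 := dj_ne (d := d) b0 (k - c₀ - i)
    have a2 := dj_ne (d := d) b0 (k - c₀ + i)
    have a3 := dj_ne (d := d) b0 (k - c₀ + i + 1)
    have e : (d (k - c₀ + (i + 1)) j / d (k - c₀ - (i + 1)) j) ^ q =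
        d (k - c₀ + i) j / d (k - c₀ - i) j *
          ((d (k - c₀ - (i + 1)) j)⁻¹ ^ q / (d (k - c₀ - i) j)⁻¹) /
          ((d (k - c₀ + i + 1) j)⁻¹ ^ q / (d (k - c₀ + i) j)⁻¹) := by
      rw [← Nat.add_assoc, inv_pow, inv_pow, div_pow]
      field_simp
    rw [e]
    exact (h1.mul h2).div h3

end Fermat.Agent.S45.Pts.CuspInc

end
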