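/-
S45, project CARAYOL-K, block PTS, node CUSP (owner helper86), ASSEMBLY (helper135).

`ptHypK_cusp_of` : `PtHypK` at a cuspidal point from
* `CuspInc.incidence`, `CuspInc.ratio_unit` (`Pts/Cusp/Inc.lean`),
* `princ_chain` (`Pts/Chain.lean`),
* `hgen` = the conclusion of the node GEN (`gen_chain`) for `g = j`,
* `hmid` = the conclusion of the port of `Type1.unit` (`cusp_mid_unit`): `z₁ ^ (q-1) / q` is a unit of `R`.
`zg_one_ram` : the hypothesis `hbase` of `gen_chain` for `g = j` (from `B2.ram_j` through the window `k - c - 1`).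
-/
import Mathlib
import Fermat.Agent.S45.Pts.Defs
import Fermat.Agent.S45.Pts.Chain
import Fermat.Agent.S45.Pts.Cusp.Inc
import Fermat.Agent.S45.Tab.Co

set_option autoImplicit false

noncomputable section

namespace Fermat.Agent.S45.Pts.CuspInc

open Fermat.Agent.S18 Fermat.Agent.S36.BP Fermat.Agent.BAD.Model Fermat.Agent.S45.K
  Fermat.Agent.S45.Gen Fermat.Agent.S36.BP.Build

variable {K₀ F₀ F₁ F₂ F : Type*} [Field K₀] [Field F₀] [Field F₁] [Field F₂] [Field F]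
  [Algebra K₀ F₀] [Algebra K₀ F₁] [Algebra K₀ F₂] [Algebra K₀ F]
variable {A₀ : ValuationSubring K₀} {q k : ℕ} {al0 be0 : F₀ →ₐ[K₀] F₁} {al1 be1 : F₁ →ₐ[K₀] F₂}
  {V0 : ValuationSubring F₀} {V1 : Fin 2 → ValuationSubring F₁} {V2 : Fin 3 → ValuationSubring F₂}
  {V : Fin (k + 1) → ValuationSubring F} {j x₀ t : F₀} {x₁ : F₁} {w1 : F₁ →ₐ[K₀] F₁}
  {cf : ℕ → ℕ → K₀} {κ : F₂} {e : Fin 4 → F₂}
  {d : ℕ → F₀ →ₐ[K₀] F} {st : ℕ → F₁ →ₐ[K₀] F} {w : ℕ → F₂ →ₐ[K₀] F}
  {Eα : Subfield F} {Nα Nβ N₀ : F →* F} {R : Subring F}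

/-- the window `k - c - 1` maps `z2 g` to `zg k d g c 1`. -/
theorem w_z2 (G : Geo A₀ k al0 be0 al1 be1 V0 V1 V2 V j d st w) {c : ℕ} (hc0 : 0 < c) (hck : c < k)
    (g : F₀) : w (k - c - 1) (z2 al0 be0 al1 be1 g) = zg k d g c 1 := by
  have h1 : k - c - 1 + 1 < k := by omega
  have h2 : k - c - 1 < k := by omega
  have e1 : k - c - 1 + 1 + 1 = k - c + 1 := by omega
  unfold z2 zg
  rw [map_sub, map_mul, map_inv₀, map_one, G.w_be _ h1, G.w_al _ h1, G.st_be _ h1, G.st_al _ h2, e1,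
    div_eq_mul_inv]

/-- `hbase` of `gen_chain` for `g = j`. -/
theorem zg_one_ram (G : Geo A₀ k al0 be0 al1 be1 V0 V1 V2 V j d st w)
    (b2 : B2 q al0 be0 al1 be1 V2 j t x₁ κ e) (c : Fin (k + 1)) (hc0 : 0 < (c : ℕ))
    (hck : (c : ℕ) < k) :
    (V c).valuation (zg k d j c 1) ^ (q - 1) = (V c).valuation (q : F) := by
  have h1 : k - (c : ℕ) - 1 + 1 < k := by omega
  have hc := G.comap_w c (k - c - 1) h1
  have hw : wty k (c : ℕ) (k - c - 1) = 1 := by
    unfold wty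
    rw [if_neg (by omega), if_pos (by omega)]
  rw [hw] at hc
  have h := Fermat.Agent.S45.Tab.co_pow_eq (φ := (w (k - c - 1) : F₂ →+* F)) hc b2.ram_j
  have e1 : (w (k - c - 1) : F₂ →+* F) (z2 al0 be0 al1 be1 j) = zg k d j c 1 := w_z2 G hc0 hck j
  have e2 : (w (k - c - 1) : F₂ →+* F) (q : F₂) = (q : F) := map_natCast _ q
  rwa [e1, e2] at h

theorem locQep (hR : PtBaseK A₀ q V R) (hT : ∀ c, LeLoc R (V c) → Through R (V c)) :
    LocQep q V R := by
  intro y hy h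
  refine hR.qep y hy fun c => ?_
  rcases hR.leLoc_or_away c with hl | ha
  · exact Or.inl (h c (hT c hl))
  · exact Or.inr ha

theorem q_ne (hb : BaseHyp A₀ q) : (q : F) ≠ 0 := by
  have := hb.charZero
  have h : (q : K₀) ≠ 0 := Nat.cast_ne_zero.2 hb.prime.ne_zero
  have h2 : algebraMap K₀ F (q : K₀) ≠ 0 := (map_ne_zero (algebraMap K₀ F)).2 h
  simpa using h2

/-- **The node CUSP**, modulo `gen_chain` (for `g = j`) and the port of `Type1.unit`. -/
theorem ptHypK_cusp_of (hb : BaseHyp A₀ q)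
    (G : Geo A₀ k al0 be0 al1 be1 V0 V1 V2 V j d st w) (b0 : B0 A₀ q V0 j x₀ t F)
    (b1 : B1 A₀ q al0 be0 V1 j t x₁ w1 cf)
    (T : Top A₀ q k V j d Eα Nα Nβ N₀) (hR : PtBaseK A₀ q V R) (hx : (d 0 j)⁻¹ ∈ rad R)
    (hT : ∀ c, LeLoc R (V c) → Through R (V c))
    (hgen : ∀ c : Fin (k + 1), 0 < (c : ℕ) → (c : ℕ) < k →
      ∀ i, 1 ≤ i → i ≤ min (c : ℕ) (k - c) →
      (V c).valuation (zg k d j c i) ^ mult q i = (V c).valuation (q : F) ∧
      (i < min (c : ℕ) (k - c) →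
        (V c).valuation (zg k d j c (i + 1) ^ q / zg k d j c i - 1) < 1))
    (hmid : ∀ c₀ : Fin (k + 1), 0 < (c₀ : ℕ) → (c₀ : ℕ) < k → Through R (V c₀) →
      (∀ c, c ≠ c₀ → Away R (V c)) →
      (∀ i, i + (c₀ : ℕ) < k → RUnit R ((d i j)⁻¹ ^ q / (d (i + 1) j)⁻¹)) →
      (∀ i, i < k → k ≤ i + (c₀ : ℕ) → RUnit R ((d (i + 1) j)⁻¹ ^ q / (d i j)⁻¹)) →
      RUnit R (zg k d j c₀ 1 ^ (q - 1) / (q : F))) :
    PtHypK V Nα Nβ N₀ R := by
  obtain ⟨c₀, hL, hA, hF, hV⟩ := incidence hb G b0 b1 hR hx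
  have hP := hR.isPt
  have ht : Through R (V c₀) := hT c₀ hL
  have hqep := locQep hR hT
  have hq0 : (q : F) ≠ 0 := q_ne hb
  have hqR : (q : F) ∈ R := natCast_mem R q
  have hprinc : Princ R (V c₀) := by
    by_cases h0 : (c₀ : ℕ) = 0
    · have e : c₀ = 0 := Fin.ext h0
      refine princ_chain hqep hP.add_rad ht hA (fun _ => (q : F)) rfl 0 (fun _ _ => hqR)
        (fun _ _ => hq0) (fun i hi => absurd hi (Nat.not_lt_zero i)) ?_
      rw [e]
      exact T.unif_zero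
    by_cases hk' : (c₀ : ℕ) = k
    · have e : c₀ = Fin.last k := Fin.ext hk'
      refine princ_chain hqep hP.add_rad ht hA (fun _ => (q : F)) rfl 0 (fun _ _ => hqR)
        (fun _ _ => hq0) (fun i hi => absurd hi (Nat.not_lt_zero i)) ?_
      rw [e]
      exact T.unif_last
    have hc0 : 0 < (c₀ : ℕ) := Nat.pos_of_ne_zero h0
    have hck : (c₀ : ℕ) < k := lt_of_le_of_ne (Nat.lt_succ_iff.1 c₀.2) hk'
    have hm : 1 ≤ min (c₀ : ℕ) (k - c₀) := le_min hc0 (by omega)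
    have hg := hgen c₀ hc0 hck
    have hvq : (V c₀).valuation (q : F) < 1 := val_q_lt G b0 c₀
    have hvq0 : (V c₀).valuation (q : F) ≠ 0 := (Valuation.ne_zero_iff _).2 hq0
    have hru := ratio_unit hb.prime.ne_zero b0 hP (Nat.lt_succ_iff.1 c₀.2) hF hV
    refine princ_chain hqep hP.add_rad ht hA
      (fun i => if i = 0 then (q : F) else zg k d j c₀ i) (by simp) (min (c₀ : ℕ) (k - c₀))
      ?_ ?_ ?_ ?_
    · intro i hi
      by_cases hi0 : i = 0
      · simp only [hi0, if_true]; exact hqR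
      · simp only [hi0, if_false]
        exact R.sub_mem (hru i hi).mem R.one_mem
    · intro i hi
      by_cases hi0 : i = 0
      · simp only [hi0, if_true]; exact hq0
      · simp only [hi0, if_false]
        intro hz
        have h1 := (hg i (Nat.pos_of_ne_zero hi0) hi).1
        rw [hz, map_zero] at h1
        rcases Nat.eq_zero_or_pos (mult q i) with h2 | h2
        · rw [h2, pow_zero] at h1
          exact absurd h1.symm hvq.ne
        · rw [zero_pow h2.ne'] at h1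
          exact hvq0 h1.symm
    · intro i hi
      by_cases hi0 : i = 0
      · subst hi0
        have hq1 : q - 1 ≠ 0 := by have := hb.prime.two_le; omega
        refine ⟨q - 1, hq1, 1, zg k d j c₀ 1 ^ (q - 1) / (q : F), RUnit.one R,
          hmid c₀ hc0 hck ht hA hF hV, ?_⟩
        simp
      · refine ⟨q, hb.prime.ne_zero, 1, 1, RUnit.one R, RUnit.one R, ?_⟩
        have h1 := (hg i (Nat.pos_of_ne_zero hi0) hi.le).2 hi
        simpa [hi0] using h1
    · have hm0 : min (c₀ : ℕ) (k - c₀) ≠ 0 := by omega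
      simp only [hm0, if_false]
      exact T.unif_mid c₀ hc0 hck
  refine ⟨fun c => ?_, ⟨c₀, ht, hprinc⟩, Or.inl ⟨c₀, hA⟩⟩
  by_cases hc : c = c₀
  · rw [hc]; exact Or.inl ht
  · exact Or.inr (hA c hc)

end Fermat.Agent.S45.Pts.CuspInc

end
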