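/-
S45, project CARAYOL-K, block PTS, node CUSP (helper135): `ptHypK_cusp`, the statement of `Pts/WIP/Master.lean` VERBATIM.
`Pts/Cusp/Inc.lean` (incidence) + `Pts/Cusp/Asm.lean` (assembly) + `Pts/Cusp/MidC.lean` (copy of helper86's junction lemma)
+ `Pts/GenChain.lean` (helper88).
-/
import Mathlib
import Fermat.Agent.S45.Pts.Defs
import Fermat.Agent.S45.Pts.GenChain
import Fermat.Agent.S45.Pts.Cusp.Asm
import Fermat.Agent.S45.Pts.Cusp.MidC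

set_option autoImplicit false

noncomputable section

namespace Fermat.Agent.S45.Pts.CuspInc

open Fermat.Agent.S18 Fermat.Agent.S36.BP Fermat.Agent.BAD.Model Fermat.Agent.S45.K
  Fermat.Agent.S45.Gen Fermat.Agent.S36.BP.Build

variable {K₀ F₀ F₁ F₂ F : Type*} [Field K₀] [Field F₀] [Field F₁] [Field F₂] [Field F]
  [Algebra K₀ F₀] [Algebra K₀ F₁] [Algebra K₀ F₂] [Algebra K₀ F]
variable {A₀ : ValuationSubring K₀} {q k : ℕ} {al0 be0 : F₀ →ₐ[K₀] F₁} {al1 be1 : F₁ →ₐ[K₀] F₂}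
  {V0 : ValuationSubring F₀} {V1 : Fin 2 → ValuationSubring F₁} {V2 : Fin 3 → ValuationSubring F₂}
  {V : Fin (k + 1) → ValuationSubring F} {j x₀ t : F₀} {x₁ : F₁} {w1 : F₁ →ₐ[K₀] F₁}
  {cf : ℕ → ℕ → K₀} {κ : F₂} {e : Fin 4 → F₂}
  {d : ℕ → F₀ →ₐ[K₀] F} {st : ℕ → F₁ →ₐ[K₀] F} {w : ℕ → F₂ →ₐ[K₀] F}
  {Eα : Subfield F} {Nα Nβ N₀ : F →* F} {R : Subring F}

/-- `V1 0 (al0 j) = 1`. -/
theorem val1_al_j (hk : 0 < k) (G : Geo A₀ k al0 be0 al1 be1 V0 V1 V2 V j d st w)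
    (b0 : B0 A₀ q V0 j x₀ t F) : (V1 0).valuation (al0 j) = 1 := by
  have h0 : sty k ((0 : Fin (k + 1)) : ℕ) 0 = 0 := by simp [sty, hk]
  have hc := G.comap_st 0 0 hk
  rw [h0] at hc
  refine (val_eq_one_of_comap (ι := (st 0 : F₁ →+* F)) hc (al0 j)).1 ?_
  have e : (st 0 : F₁ →+* F) (al0 j) = d 0 j := G.st_al 0 hk j
  rw [e]
  exact val_dj G b0 0 (Nat.zero_le k)

/-- the junction `F V` of the component `c₀`: `z₁ ^ (q - 1) / q` is a unit of `R`. -/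
theorem mid_unit (hb : BaseHyp A₀ q) (G : Geo A₀ k al0 be0 al1 be1 V0 V1 V2 V j d st w)
    (b0 : B0 A₀ q V0 j x₀ t F) (b1 : B1 A₀ q al0 be0 V1 j t x₁ w1 cf)
    (b2 : B2 q al0 be0 al1 be1 V2 j t x₁ κ e) (hR : PtBaseK A₀ q V R) (hx : (d 0 j)⁻¹ ∈ rad R)
    (c₀ : Fin (k + 1)) (hc0 : 0 < (c₀ : ℕ)) (hck : (c₀ : ℕ) < k) (ht : Through R (V c₀))
    (hA : ∀ c, c ≠ c₀ → Away R (V c))
    (hF : ∀ i, i + (c₀ : ℕ) < k → RUnit R ((d i j)⁻¹ ^ q / (d (i + 1) j)⁻¹))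
    (hV : ∀ i, i < k → k ≤ i + (c₀ : ℕ) → RUnit R ((d (i + 1) j)⁻¹ ^ q / (d i j)⁻¹)) :
    RUnit R (zg k d j c₀ 1 ^ (q - 1) / (q : F)) := by
  have hP := hR.isPt
  have hq0 : (q : F) ≠ 0 := q_ne hb
  have hvq : (V c₀).valuation (q : F) < 1 := val_q_lt G b0 c₀
  have hvq0 : (V c₀).valuation (q : F) ≠ 0 := (Valuation.ne_zero_iff _).2 hq0
  have hram := zg_one_ram G b2 c₀ hc0 hck
  have hq1 : q - 1 ≠ 0 := by have := hb.prime.two_le; omega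
  have e1 : k - (c₀ : ℕ) - 1 + 1 = k - c₀ := by omega
  have ez : (d (k - c₀ - 1) j)⁻¹ / (d (k - c₀ + 1) j)⁻¹ - 1 = zg k d j c₀ 1 := by
    rw [inv_div_inv]; rfl
  have hrel : Rel q cf (d (k - c₀ - 1) j)⁻¹ (d (k - c₀) j)⁻¹ := by
    have h := rel_step G b1 (i := k - c₀ - 1) (by omega)
    rwa [e1] at h
  have hrel'' : Rel q cf (d (k - c₀ + 1) j)⁻¹ (d (k - c₀) j)⁻¹ :=
    rel_step' G b1 (i := k - c₀) (by omega)
  have hc1 : (V c₀).valuation ((d (k - c₀ - 1) j)⁻¹ ^ q / (d (k - c₀) j)⁻¹ - 1) < 1 := by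
    have h := cong_F G b0 b1 c₀ (i := k - c₀ - 1) (by omega)
    rwa [e1] at h
  have hc1' : (V c₀).valuation ((d (k - c₀ + 1) j)⁻¹ ^ q / (d (k - c₀) j)⁻¹ - 1) < 1 :=
    cong_V G b0 b1 c₀ (i := k - c₀) (by omega) (by omega)
  have hτ : RUnit R ((d (k - c₀ - 1) j)⁻¹ ^ q / (d (k - c₀) j)⁻¹) := by
    have h := hF (k - c₀ - 1) (by omega)
    rwa [e1] at h
  have hσ : RUnit R ((d (k - c₀ + 1) j)⁻¹ ^ q / (d (k - c₀) j)⁻¹) :=
    hV (k - c₀) (by omega) (by omega)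
  have hne : (d (k - c₀ - 1) j)⁻¹ ≠ (d (k - c₀ + 1) j)⁻¹ := by
    intro h
    have hz : zg k d j c₀ 1 = 0 := by
      rw [← ez, h, div_self (inv_ne_zero (dj_ne b0 _)), sub_self]
    rw [hz, map_zero, zero_pow hq1] at hram
    exact hvq0 hram.symm
  have h := cusp_mid_unit hb.prime hP (W := V c₀) ht.le
    (fun y hy hyW => hR.qep y hy fun c => by
      by_cases hc : c = c₀
      · rw [hc]; exact Or.inl hyW
      · exact Or.inr (hA c hc))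
    hq0 hvq b1.coeff_mem (inv_ne_zero (dj_ne b0 _)) (inv_ne_zero (dj_ne b0 _))
    (inv_ne_zero (dj_ne b0 _)) hne hrel hrel''
    (by rw [map_inv₀, val_dj G b0 c₀ (by omega), inv_one]) hc1 hc1'
    (s_mem_rad G b1 hP hx _ (by omega)) hτ hσ (fun _ => by rw [ez]; exact hram.le)
  rw [ez] at h
  exact h.2.2

/-- **CUSP** (contract of `Pts/WIP/Master.lean`, verbatim): the cuspidal points. -/
theorem ptHypK_cusp (hk : 2 ≤ k) (hb : BaseHyp A₀ q)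
    (G : Geo A₀ k al0 be0 al1 be1 V0 V1 V2 V j d st w) (b0 : B0 A₀ q V0 j x₀ t F)
    (b1 : B1 A₀ q al0 be0 V1 j t x₁ w1 cf) (b2 : B2 q al0 be0 al1 be1 V2 j t x₁ κ e)
    (T : Top A₀ q k V j d Eα Nα Nβ N₀) (hR : PtBaseK A₀ q V R) (hx : (d 0 j)⁻¹ ∈ rad R)
    (hT : ∀ c, LeLoc R (V c) → Through R (V c)) :
    PtHypK V Nα Nβ N₀ R :=
  ptHypK_cusp_of hb G b0 b1 T hR hx hT
    (fun c hc0 hck => gen_chain hb G b0 b1 c hc0 hck j (val1_al_j (by omega) G b0) b1.kron_j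
      (zg_one_ram G b2 c hc0 hck))
    (fun c₀ hc0 hck ht hA hF hV => mid_unit hb G b0 b1 b2 hR hx c₀ hc0 hck ht hA hF hV)

end Fermat.Agent.S45.Pts.CuspInc

end
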