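/-
S45, project CARAYOL-K, block PTS, node P4 (helper38): **THE INSTANCE OF THE CUSP ANALYSIS.**

`Pts/Cusp.lean` (helper86) proves `CuspChain + CuspUnif ⟹ PtHypK`.  Here the two structures are produced from the interface
of the block (`Geo`, `B0`, `B1`, `B2`, `Top`), with `s i = (d i j)⁻¹` and `a x = k - x`:

* `cuspChain_of`  : `Geo + B0 + B1 ⟹ CuspChain`;
* `zg_base`       : `(V c)(z_1)^(q-1) = (V c)(q)` on a middle component (window `a - 1`, `B2.ram_j`);
* `cuspUnif_of`   : `Geo + B2 + Top + (links of the chain z_i) ⟹ CuspUnif`;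
* `ptHypK_cusp_of_link` : the node CUSP of `Pts/WIP/Master.lean`, with the links of the chain (conclusion of the node GEN for
  `g = j`) as a hypothesis;
* `val_al0_j`     : the hypothesis `hg` of the node GEN for `g = j`.
-/
import Fermat.Agent.S45.Pts.Cusp
import Fermat.Agent.S45.Pts.Defs
import Fermat.Agent.S45.Tab.Co

set_option autoImplicit false

noncomputable section

namespace Fermat.Agent.S45.Pts

open Fermat.Agent.S18 Fermat.Agent.S36.BP Fermat.Agent.S36.BP.Build Fermat.Agent.BAD.Model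
  Fermat.Agent.S45.K Fermat.Agent.S45.Tab

section Map

variable {K₀ F₁ F : Type*} [Field K₀] [Field F₁] [Field F] [Algebra K₀ F₁] [Algebra K₀ F]

theorem eps_map_algHom (φ : F₁ →ₐ[K₀] F) (q : ℕ) (c : ℕ → ℕ → K₀) (S T : F₁) :
    φ (eps q c S T) = eps q c (φ S) (φ T) := by
  unfold eps
  simp only [map_sum, map_mul, map_pow, AlgHom.commutes]

theorem rel_map_algHom (φ : F₁ →ₐ[K₀] F) {q : ℕ} {c : ℕ → ℕ → K₀} {S T : F₁} (h : Rel q c S T) :
    Rel q c (φ S) (φ T) := by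
  unfold BAD.Model.Rel at h ⊢
  rw [← eps_map_algHom, ← map_pow, ← map_pow, ← map_mul, ← map_mul, ← map_add, ← map_add, h,
    map_zero]

/-- `v ≡ u^q` modulo `q`, `u` a unit: `(1/u)^q / (1/v) ≡ 1`. -/
theorem cong_of_kron {W : ValuationSubring F} {q : ℕ} {u v : F} (hq0 : (q : F) ≠ 0)
    (hqW : W.valuation (q : F) < 1) (hu : W.valuation u = 1)
    (h : W.valuation ((v - u ^ q) / (q : F)) ≤ 1) : W.valuation (u⁻¹ ^ q / v⁻¹ - 1) < 1 := by
  have hu0 : u ≠ 0 := by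
    rintro rfl
    rw [map_zero] at hu
    exact zero_ne_one hu
  have e : u⁻¹ ^ q / v⁻¹ - 1 = (q : F) * ((v - u ^ q) / (q : F)) / u ^ q := by
    rw [inv_pow, inv_div_inv]
    field_simp
  rw [e, map_div₀, map_mul, map_pow, hu, one_pow, div_one]
  exact mul_lt_one_of_lt_of_le hqW h

end Map

section Main

variable {K₀ F₀ F₁ F₂ F : Type*} [Field K₀] [Field F₀] [Field F₁] [Field F₂] [Field F]
  [Algebra K₀ F₀] [Algebra K₀ F₁] [Algebra K₀ F₂] [Algebra K₀ F]
variable {A₀ : ValuationSubring K₀} {q k : ℕ} {al0 be0 : F₀ →ₐ[K₀] F₁} {al1 be1 : F₁ →ₐ[K₀] F₂}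
  {V0 : ValuationSubring F₀} {V1 : Fin 2 → ValuationSubring F₁} {V2 : Fin 3 → ValuationSubring F₂}
  {V : Fin (k + 1) → ValuationSubring F} {j x₀ t : F₀} {x₁ : F₁} {w1 : F₁ →ₐ[K₀] F₁}
  {cf : ℕ → ℕ → K₀} {κ : F₂} {e : Fin 4 → F₂}
  {d : ℕ → F₀ →ₐ[K₀] F} {st : ℕ → F₁ →ₐ[K₀] F} {w : ℕ → F₂ →ₐ[K₀] F}
  {Eα : Subfield F} {Nα Nβ N₀ : F →* F} {R : Subring F}

/-- `s i = 1 / j(q^i z)` -/
def cuspS (d : ℕ → F₀ →ₐ[K₀] F) (j : F₀) (i : ℕ) : F := (d i j)⁻¹

theorem cuspZ_cuspS (c i : ℕ) : cuspZ (cuspS d j) (k - c) i = zg k d j c i := by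
  unfold cuspZ cuspS zg
  rw [inv_div_inv]

theorem natCast_ne_zero_of_base (hb : BaseHyp A₀ q) (F : Type*) [Field F] [Algebra K₀ F] :
    (q : F) ≠ 0 := by
  have := hb.charZero
  have h : (q : K₀) ≠ 0 := Nat.cast_ne_zero.2 hb.prime.ne_zero
  have := (map_ne_zero (algebraMap K₀ F)).2 h
  rwa [map_natCast] at this

theorem Geo.q_lt (G : Geo A₀ k al0 be0 al1 be1 V0 V1 V2 V j d st w) (b0 : B0 A₀ q V0 j x₀ t F)
    (x : Fin (k + 1)) : (V x).valuation (q : F) < 1 := by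
  have h := (co_lt_one_iff (G.comap_d x 0 (Nat.zero_le _)) (q : F₀)).2
    (approx_val_unif_lt_one b0.unif)
  rwa [map_natCast] at h

theorem Geo.val_d_j (G : Geo A₀ k al0 be0 al1 be1 V0 V1 V2 V j d st w) (b0 : B0 A₀ q V0 j x₀ t F)
    (x : Fin (k + 1)) {i : ℕ} (hi : i ≤ k) : (V x).valuation (d i j) = 1 :=
  (co_eq_one_iff (G.comap_d x i hi) j).2 b0.j_unit

/-- the step `i` of type `F`: `j(q^(i+1) z) ≡ j(q^i z)^q` modulo `q` -/
theorem Geo.kronF (G : Geo A₀ k al0 be0 al1 be1 V0 V1 V2 V j d st w)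
    (b1 : B1 A₀ q al0 be0 V1 j t x₁ w1 cf) (x : Fin (k + 1)) {i : ℕ} (hi : i + (x : ℕ) < k) :
    (V x).valuation ((d (i + 1) j - d i j ^ q) / (q : F)) ≤ 1 := by
  have hik : i < k := by omega
  have hc : (V x).comap (st i : F₁ →+* F) = V1 0 := by
    rw [G.comap_st x i hik, sty, if_pos hi]
  have h := (co_mem_iff hc ((be0 j - al0 j ^ q) / (q : F₁))).2
    ((ValuationSubring.valuation_le_one_iff _ _).1 b1.kron_j)
  have e : (st i : F₁ →+* F) ((be0 j - al0 j ^ q) / (q : F₁)) =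
      (d (i + 1) j - d i j ^ q) / (q : F) := by
    rw [map_div₀, map_sub, map_pow, map_natCast]
    change (st i (be0 j) - st i (al0 j) ^ q) / (q : F) = _
    rw [G.st_al i hik, G.st_be i hik]
  rw [e] at h
  exact (ValuationSubring.valuation_le_one_iff _ _).2 h

/-- the step `i` of type `V`: `j(q^i z) ≡ j(q^(i+1) z)^q` modulo `q` -/
theorem Geo.kronV (G : Geo A₀ k al0 be0 al1 be1 V0 V1 V2 V j d st w)
    (b1 : B1 A₀ q al0 be0 V1 j t x₁ w1 cf) (x : Fin (k + 1)) {i : ℕ} (hi : k ≤ i + (x : ℕ))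
    (hik : i < k) : (V x).valuation ((d i j - d (i + 1) j ^ q) / (q : F)) ≤ 1 := by
  have hc : (V x).comap (st i : F₁ →+* F) = V1 1 := by
    rw [G.comap_st x i hik, sty, if_neg (by omega)]
  have h1 := (co_mem_iff b1.comap_w ((be0 j - al0 j ^ q) / (q : F₁))).2
    ((ValuationSubring.valuation_le_one_iff _ _).1 b1.kron_j)
  have h := (co_mem_iff hc _).2 h1
  have e : (st i : F₁ →+* F) ((w1 : F₁ →+* F₁) ((be0 j - al0 j ^ q) / (q : F₁))) =
      (d i j - d (i + 1) j ^ q) / (q : F) := by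
    rw [map_div₀, map_sub, map_pow, map_natCast, map_div₀, map_sub, map_pow, map_natCast]
    change (st i (w1 (be0 j)) - st i (w1 (al0 j)) ^ q) / (q : F) = _
    rw [b1.w_al, b1.w_be, G.st_al i hik, G.st_be i hik]
  rw [e] at h
  exact (ValuationSubring.valuation_le_one_iff _ _).2 h

/-- **`Geo + B0 + B1 ⟹ CuspChain`.** -/
theorem cuspChain_of (hb : BaseHyp A₀ q) (G : Geo A₀ k al0 be0 al1 be1 V0 V1 V2 V j d st w)
    (b0 : B0 A₀ q V0 j x₀ t F) (b1 : B1 A₀ q al0 be0 V1 j t x₁ w1 cf) :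
    CuspChain A₀ q k V (fun x : Fin (k + 1) => k - (x : ℕ)) cf (cuspS d j) where
  coeff_mem := b1.coeff_mem
  coeff_unit := b1.coeff_unit
  ne := fun i _ => inv_ne_zero ((map_ne_zero _).2 b0.j_ne)
  rel := fun i hi => by
    have h := rel_map_algHom (st i) b1.rel
    rwa [map_inv₀, map_inv₀, G.st_al i hi, G.st_be i hi] at h
  rel' := fun i hi => by
    have h := rel_map_algHom (st i) b1.rel'
    rwa [map_inv₀, map_inv₀, G.st_al i hi, G.st_be i hi] at h
  a_le := fun x => Nat.sub_le _ _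
  a_inj := fun x y h => by
    have h1 := x.2
    have h2 := y.2
    have h3 : k - (x : ℕ) = k - (y : ℕ) := h
    exact Fin.ext (by omega)
  q_lt := G.q_lt b0
  unit := fun x i hi => by
    unfold cuspS
    rw [map_inv₀, G.val_d_j b0 x hi, inv_one]
  congF := fun x i hi => by
    have hi' : i < k - (x : ℕ) := hi
    exact cong_of_kron (natCast_ne_zero_of_base hb F) (G.q_lt b0 x) (G.val_d_j b0 x (by omega))
      (G.kronF b1 x (by omega))
  congV := fun x i hi hik => by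
    have hi' : k - (x : ℕ) ≤ i := hi
    exact cong_of_kron (natCast_ne_zero_of_base hb F) (G.q_lt b0 x) (G.val_d_j b0 x (by omega))
      (G.kronV b1 x (by omega) hik)

/-- the hypothesis `hg` of the node GEN for `g = j` -/
theorem val_al0_j (hk : 1 ≤ k) (G : Geo A₀ k al0 be0 al1 be1 V0 V1 V2 V j d st w)
    (b0 : B0 A₀ q V0 j x₀ t F) : (V1 0).valuation (al0 j) = 1 := by
  have hc : (V 0).comap (st 0 : F₁ →+* F) = V1 0 := by
    rw [G.comap_st 0 0 (by omega), sty, if_pos (by simp only [Fin.val_zero]; omega)]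
  refine (co_eq_one_iff hc (al0 j)).1 ?_
  change (V 0).valuation (st 0 (al0 j)) = 1
  rw [G.st_al 0 (by omega)]
  exact G.val_d_j b0 0 (Nat.zero_le _)

/-- **The base of the chain**: `z_1 = j(q^(a+1) z)/j(q^(a-1) z) - 1` has `z_1^(q-1) ~ q` on the component `c`
(`0 < c < k`, `a = k - c`): the window `a - 1` is of type `FV`. -/
theorem zg_base (G : Geo A₀ k al0 be0 al1 be1 V0 V1 V2 V j d st w)
    (b2 : B2 q al0 be0 al1 be1 V2 j t x₁ κ e) (c : Fin (k + 1)) (hc0 : 0 < (c : ℕ))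
    (hck : (c : ℕ) < k) : (V c).valuation (zg k d j c 1) ^ (q - 1) = (V c).valuation (q : F) := by
  have h1 : k - (c : ℕ) - 1 + 1 < k := by omega
  have hc : (V c).comap (w (k - (c : ℕ) - 1) : F₂ →+* F) = V2 1 := by
    rw [G.comap_w c _ h1, wty, if_neg (by omega), if_pos (by omega)]
  have h := co_pow_eq hc b2.ram_j
  have e1 : (w (k - (c : ℕ) - 1) : F₂ →+* F) (z2 al0 be0 al1 be1 j) = zg k d j c 1 := by
    unfold z2 zg
    rw [map_sub, map_mul, map_inv₀, map_one]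
    change w (k - (c : ℕ) - 1) (be1 (be0 j)) * (w (k - (c : ℕ) - 1) (al1 (al0 j)))⁻¹ - 1 = _
    rw [G.w_al _ h1, G.w_be _ h1, G.st_al _ (by omega), G.st_be _ (by omega),
      show k - (c : ℕ) - 1 + 1 + 1 = k - (c : ℕ) + 1 by omega, div_eq_mul_inv]
  rwa [e1, map_natCast] at h

/-- **`Geo + B2 + Top + links ⟹ CuspUnif`.** -/
theorem cuspUnif_of (G : Geo A₀ k al0 be0 al1 be1 V0 V1 V2 V j d st w)
    (b2 : B2 q al0 be0 al1 be1 V2 j t x₁ κ e) (T : Top A₀ q k V j d Eα Nα Nβ N₀)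
    (hlink : ∀ c : Fin (k + 1), 0 < (c : ℕ) → (c : ℕ) < k → ∀ i, 1 ≤ i →
      i < min (c : ℕ) (k - c) → (V c).valuation (zg k d j c (i + 1) ^ q / zg k d j c i - 1) < 1) :
    CuspUnif q k V (fun x : Fin (k + 1) => k - (x : ℕ)) (cuspS d j) where
  unif_end := fun x hx => by
    have h1 := x.2
    have hx' : k - (x : ℕ) = 0 ∨ k - (x : ℕ) = k := hx
    by_cases h0 : (x : ℕ) = 0
    · have : x = 0 := Fin.ext h0
      rw [this]
      exact T.unif_zero
    · have : x = Fin.last k := Fin.ext (by rw [Fin.val_last]; omega)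
      rw [this]
      exact T.unif_last
  ram1 := fun x h0 hk => by
    have h0' : 0 < k - (x : ℕ) := h0
    have hk' : k - (x : ℕ) < k := hk
    change (V x).valuation (cuspZ (cuspS d j) (k - (x : ℕ)) 1) ^ (q - 1) ≤ _
    rw [cuspZ_cuspS]
    exact (zg_base G b2 x (by omega) (by omega)).le
  link := fun x i h1 h2 h3 => by
    have h2' : i < k - (x : ℕ) := h2
    have h3' : i < k - (k - (x : ℕ)) := h3
    change (V x).valuation (cuspZ (cuspS d j) (k - (x : ℕ)) (i + 1) ^ q /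
      cuspZ (cuspS d j) (k - (x : ℕ)) i - 1) < 1
    rw [cuspZ_cuspS, cuspZ_cuspS]
    exact hlink x (by omega) (by omega) i h1 (by omega)
  unif_mid := fun x h0 hk => by
    have h0' : 0 < k - (x : ℕ) := h0
    have hk' : k - (x : ℕ) < k := hk
    change IsUnif (V x) (cuspZ (cuspS d j) (k - (x : ℕ)) (min (k - (x : ℕ)) (k - (k - (x : ℕ)))))
    rw [cuspZ_cuspS, show min (k - (x : ℕ)) (k - (k - (x : ℕ))) = min (x : ℕ) (k - (x : ℕ)) by omega]
    exact T.unif_mid x (by omega) (by omega)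

/-- **The node CUSP, with the links of the chain as a hypothesis.** -/
theorem ptHypK_cusp_of_link (hb : BaseHyp A₀ q)
    (G : Geo A₀ k al0 be0 al1 be1 V0 V1 V2 V j d st w) (b0 : B0 A₀ q V0 j x₀ t F)
    (b1 : B1 A₀ q al0 be0 V1 j t x₁ w1 cf) (b2 : B2 q al0 be0 al1 be1 V2 j t x₁ κ e)
    (T : Top A₀ q k V j d Eα Nα Nβ N₀) (hR : PtBaseK A₀ q V R) (hx : (d 0 j)⁻¹ ∈ rad R)
    (hT : ∀ c, LeLoc R (V c) → Through R (V c))
    (hlink : ∀ c : Fin (k + 1), 0 < (c : ℕ) → (c : ℕ) < k → ∀ i, 1 ≤ i →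
      i < min (c : ℕ) (k - c) → (V c).valuation (zg k d j c (i + 1) ^ q / zg k d j c i - 1) < 1) :
    PtHypK V Nα Nβ N₀ R := by
  have hta : ∀ x, Through R (V x) ∨ Away R (V x) := fun x =>
    (hR.leLoc_or_away x).imp (hT x) id
  have hqep : LocQep q V R := fun y hy h => hR.qep y hy fun c =>
    (hta c).imp (h c) id
  have hqR : (q : F) ∈ rad R := by
    have := hR.isPt.const_rad (q : K₀) (approx_val_unif_lt_one hb.unif)
    rwa [map_natCast] at this
  exact ptHypK_of_cusp hb.prime hR.isPt hta hqep (natCast_ne_zero_of_base hb F) hqR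
    (cuspChain_of hb G b0 b1) (cuspUnif_of G b2 T hlink) hx Nα Nβ N₀

end Main

end Fermat.Agent.S45.Pts

end
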